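/-
P-CFT / [GA'] / row 1026 PAIR-LAYER (helper64): `Fermat.Agent.H43.Cft.LayerFieldStatement`.

A level character `χ` of `G_K` (`K ≤ ℚ̄` arbitrary) with `χ s = 1` for some `s ∈ G_K` cuts out a
Galois extension `M / K` of degree `p` inside `ℚ̄`: `M` is the fixed field of the kernel of `χ`
(infinite Galois correspondence for the open normal subgroup `ker χ` of `Gal(ℚ̄/K)`).
-/
import Fermat.Agent.H43.Cft.PairRealInterfaces
import Fermat.Agent.H81.FrobExists

set_option autoImplicit false

noncomputable section

namespace Fermat.Agent.H64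

open Fermat.Agent.H54.Cft

/-- The restriction of scalars of an element of `Gal(ℚ̄/K)` lies in `G_K`. -/
theorem layer_restrict_mem (K : IntermediateField ℚ Qbar) (σ : Qbar ≃ₐ[K] Qbar) :
    σ.restrictScalars ℚ ∈ K.fixingSubgroup := by
  rw [IntermediateField.mem_fixingSubgroup_iff]
  intro x hx
  exact σ.commutes ⟨x, hx⟩

/-- A character of `G_K` as a homomorphism on `Gal(ℚ̄/K)`. -/
def layerChar {p : ℕ} (K : IntermediateField ℚ Qbar) (χ : GQ → ZMod p)
    (hχ : IsAddCharOn K χ) : (Qbar ≃ₐ[K] Qbar) →* Multiplicative (ZMod p) where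
  toFun σ := Multiplicative.ofAdd (χ (σ.restrictScalars ℚ))
  map_one' := by
    have h1 := hχ 1 (one_mem _) 1 (one_mem _)
    rw [mul_one] at h1
    have h2 : χ 1 = 0 := left_eq_add.mp h1
    show Multiplicative.ofAdd (χ 1) = 1
    rw [h2]
    rfl
  map_mul' σ τ := by
    show Multiplicative.ofAdd (χ (σ.restrictScalars ℚ * τ.restrictScalars ℚ)) = _
    rw [hχ _ (layer_restrict_mem K σ) _ (layer_restrict_mem K τ)]
    rfl

theorem layerChar_apply {p : ℕ} (K : IntermediateField ℚ Qbar) (χ : GQ → ZMod p)
    (hχ : IsAddCharOn K χ) (σ : Qbar ≃ₐ[K] Qbar) :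
    layerChar K χ hχ σ = Multiplicative.ofAdd (χ (σ.restrictScalars ℚ)) := rfl

theorem layerChar_mem_ker {p : ℕ} (K : IntermediateField ℚ Qbar) (χ : GQ → ZMod p)
    (hχ : IsAddCharOn K χ) (σ : Qbar ≃ₐ[K] Qbar) :
    σ ∈ (layerChar K χ hχ).ker ↔ χ (σ.restrictScalars ℚ) = 0 := by
  rw [MonoidHom.mem_ker, layerChar_apply]
  exact Iff.rfl

/-- **[PAIR-LAYER]** (row 1026). -/
theorem layerField : Fermat.Agent.H43.Cft.LayerFieldStatement := by
  intro p _ K χ hadd hlvl hs
  obtain ⟨F, hF, hFχ⟩ := hlvl
  obtain ⟨s, hsK, hs1⟩ := hs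
  have : IsGalois ℚ Qbar := Fermat.Agent.H81.isGalois_rat_Qbar
  have : IsGalois K Qbar := inferInstance
  -- the kernel is open
  have hFKfin : FiniteDimensional K (IntermediateField.adjoin K (F : Set Qbar)) := by
    have hrank : Module.rank K (IntermediateField.adjoin K (F : Set Qbar)) ≤ Module.rank ℚ F :=
      IntermediateField.adjoin_rank_le_of_isAlgebraic_right K F
    have hfin : Module.rank ℚ F < Cardinal.aleph0 := Module.rank_lt_aleph0 ℚ F
    exact Module.rank_lt_aleph0_iff.mp (lt_of_le_of_lt hrank hfin)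
  have hFKle : (IntermediateField.adjoin K (F : Set Qbar)).fixingSubgroup ≤
      (layerChar K χ hadd).ker := by
    intro σ hσ
    rw [layerChar_mem_ker]
    apply hFχ _ _ (layer_restrict_mem K σ)
    rw [IntermediateField.mem_fixingSubgroup_iff]
    intro x hx
    exact (IntermediateField.mem_fixingSubgroup_iff _ _).mp hσ x
      (IntermediateField.subset_adjoin K _ hx)
  have hopen : IsOpen ((layerChar K χ hadd).ker : Set (Qbar ≃ₐ[K] Qbar)) :=
    Subgroup.isOpen_mono hFKle
      (IntermediateField.adjoin K (F : Set Qbar)).fixingSubgroup_isOpen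
  have hclosed : IsClosed ((layerChar K χ hadd).ker : Set (Qbar ≃ₐ[K] Qbar)) :=
    Subgroup.isClosed_of_isOpen _ hopen
  have hfix : (IntermediateField.fixedField (layerChar K χ hadd).ker).fixingSubgroup =
      (layerChar K χ hadd).ker :=
    InfiniteGalois.fixingSubgroup_fixedField ⟨(layerChar K χ hadd).ker, hclosed⟩
  have hMfin : FiniteDimensional K (IntermediateField.fixedField (layerChar K χ hadd).ker) :=
    (InfiniteGalois.isOpen_iff_finite _).mp (by rw [hfix]; exact hopen)
  have hMgal : IsGalois K (IntermediateField.fixedField (layerChar K χ hadd).ker) :=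
    (InfiniteGalois.normal_iff_isGalois _).mp (by rw [hfix]; infer_instance)
  refine ⟨IntermediateField.fixedField (layerChar K χ hadd).ker, hMfin, hMgal, ?_, ?_⟩
  · -- the degree
    have hsurj : Function.Surjective (layerChar K χ hadd) := by
      intro y
      refine ⟨(IntermediateField.fixingSubgroupEquiv K ⟨s, hsK⟩) ^ (Multiplicative.toAdd y).val,
        ?_⟩
      rw [map_pow, layerChar_apply]
      have h1 : (IntermediateField.fixingSubgroupEquiv K ⟨s, hsK⟩).restrictScalars ℚ = s := by
        ext x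
        rfl
      rw [h1, hs1, ← ofAdd_nsmul, nsmul_eq_mul, mul_one, ZMod.natCast_zmod_val]
      rfl
    have hidx : (layerChar K χ hadd).ker.index = p := by
      rw [Subgroup.index_ker, MonoidHom.range_eq_top.mpr hsurj, Subgroup.card_top,
        Nat.card_congr Multiplicative.toAdd, Nat.card_zmod]
    have h3 : ∀ (M : IntermediateField K Qbar) [Normal K M],
        Nat.card (M ≃ₐ[K] M) = M.fixingSubgroup.index := by
      intro M _
      rw [← IntermediateField.restrictNormalHom_ker, Subgroup.index_ker,
        MonoidHom.range_eq_top.mpr (AlgEquiv.restrictNormalHom_surjective Qbar),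
        Subgroup.card_top]
    rw [← IsGalois.card_aut_eq_finrank, h3, hfix, hidx]
  · intro g hg
    have h1 : (IntermediateField.fixingSubgroupEquiv K ⟨g, hg⟩).restrictScalars ℚ = g := by
      ext x
      rfl
    have h2 := layerChar_mem_ker K χ hadd (IntermediateField.fixingSubgroupEquiv K ⟨g, hg⟩)
    rw [h1, ← hfix, IntermediateField.mem_fixingSubgroup_iff] at h2
    rw [← h2]
    constructor
    · intro h x hx
      exact h x hx
    · intro h x hx
      exact h x hx

end Fermat.Agent.H64

end
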