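/-
P-CFT / LOCAL, row 831 INV-RES (helper64), part 1: a pull-back computation for the standard
2-cocycle of a finite cyclic group (Mathlib + helper61's `CyclicCocycle` only).

Let `G' = ⟨g'⟩` be cyclic of order `n'`, let `n > 0`, `f`, `d` be natural numbers with
`d * n = f * n'` and let `a` be a `G'`-invariant element.  The 2-cochain
`(g'^i, g'^k) ↦ a ^ ⌊((f i mod n) + (f k mod n)) / n⌋` (the pull-back of the standard cocycle of
a cyclic group `⟨g⟩` of order `n` along `g' ↦ g ^ f`) is cohomologous to the `d`-th power of the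
standard cocycle of `g'`, through the explicit cochain `g'^i ↦ a ^ (-⌊f i / n⌋)`.
-/
import Mathlib
import Fermat.Agent.H61.CFT.CyclicCocycle

set_option autoImplicit false

noncomputable section

namespace Fermat.Agent.H64

open groupCohomology Fermat.Agent.H61.CFT

/-- The numerical identity behind `cycpull_coboundary`. -/
lemma cycpull_nat {n n' f d : ℕ} (hn : 0 < n) (hd : d * n = f * n') (i k : ℕ) :
    ((f * i) % n + (f * k) % n) / n + (f * i) / n + (f * k) / n
      = d * ((i + k) / n') + (f * ((i + k) % n')) / n := by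
  apply Nat.eq_of_mul_eq_mul_left hn
  have hr : ((f * i) % n + (f * k) % n) % n = (f * ((i + k) % n')) % n := by
    have h1 : ((f * i) % n + (f * k) % n) % n = (f * (i + k)) % n := by
      rw [← Nat.add_mod, ← Nat.mul_add]
    have h2 : f * (i + k) = f * ((i + k) % n') + n * (d * ((i + k) / n')) := by
      have h3 := Nat.mod_add_div (i + k) n'
      calc f * (i + k) = f * ((i + k) % n' + n' * ((i + k) / n')) := by rw [h3]
        _ = f * ((i + k) % n') + (f * n') * ((i + k) / n') := by ring
        _ = f * ((i + k) % n') + n * (d * ((i + k) / n')) := by rw [← hd]; ring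
    rw [h1, h2, Nat.add_mul_mod_self_left]
  have e1 := Nat.mod_add_div ((f * i) % n + (f * k) % n) n
  have e2 := Nat.mod_add_div (f * i) n
  have e3 := Nat.mod_add_div (f * k) n
  have e4 := Nat.mod_add_div (f * ((i + k) % n')) n
  have e5 := Nat.mod_add_div (i + k) n'
  rw [hr] at e1
  generalize ((f * i) % n + (f * k) % n) / n = A1 at e1 ⊢
  generalize (f * i) / n = Ai at e2 ⊢
  generalize (f * k) / n = Ak at e3 ⊢
  generalize (f * ((i + k) % n')) / n = A4 at e4 ⊢
  generalize (f * ((i + k) % n')) % n = r4 at e1 e4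
  generalize (f * i) % n = ri at e1 e2
  generalize (f * k) % n = rk at e1 e3
  generalize (i + k) / n' = e at e5 ⊢
  generalize (i + k) % n' = u at e4 e5
  zify at e1 e2 e3 e4 e5 hd ⊢
  linear_combination e1 + e2 + e3 - e4 - (e : ℤ) * hd - (f : ℤ) * e5

/-- **Pull-back of the standard cocycle, explicit coboundary.** -/
theorem cycpull_coboundary {G' M : Type*} [Group G'] [CommGroup M] [MulDistribMulAction G' M]
    {g' : G'} (hg' : IsGen g') {n f d : ℕ} (hn : 0 < n) (hd : d * n = f * orderOf g')
    {a : M} (ha : ∀ x : G', x • a = a) :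
    IsMulCoboundary₂ (fun p : G' × G' =>
      a ^ (((f * dlog g' p.1) % n + (f * dlog g' p.2) % n) / n) / (stdCocycle g' a p) ^ d) := by
  refine ⟨fun x => (a ^ ((f * dlog g' x) / n))⁻¹, fun x y => ?_⟩
  have hx : x • (a ^ ((f * dlog g' y) / n))⁻¹ = (a ^ ((f * dlog g' y) / n))⁻¹ := by
    rw [smul_inv', smul_pow', ha]
  have key := cycpull_nat hn hd (dlog g' x) (dlog g' y)
  simp only [hx, stdCocycle_apply, hg'.dlog_mul]
  generalize ((f * dlog g' x) % n + (f * dlog g' y) % n) / n = L at key ⊢
  generalize (f * dlog g' x) / n = A at key ⊢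
  generalize (f * dlog g' y) / n = B at key ⊢
  generalize (f * ((dlog g' x + dlog g' y) % orderOf g')) / n = C at key ⊢
  generalize (dlog g' x + dlog g' y) / orderOf g' = e at key ⊢
  have hkey : (L : ℤ) + A + B = d * e + C := by exact_mod_cast key
  simp only [← zpow_natCast, ← zpow_neg, ← zpow_mul, div_eq_mul_inv, ← zpow_add]
  congr 1
  linarith

end Fermat.Agent.H64

end
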