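/-
P-CFT / FIELD-DICT, row 985 GC-H1-U (helper64): `Fermat.Agent.H76.Cft.H1UStatement`,
the number of level homomorphisms `G_L → ZMod p` (levels of `G_{ℚ,S}`), from helper54's
`h1Card` (`Fermat.Agent.H54.Cft.GCElem`, itself from `levelCharCount`).
-/
import Fermat.Agent.H76.Cft.FieldDictInterfaces
import Fermat.Agent.H54.Cft.GCElem

set_option autoImplicit false

open Fermat.Agent.H54.Cft Fermat.Agent.H13.Cft Fermat.Agent.H78.CFT
open ExtCitation IsDedekindDomain NumberField

namespace Fermat.Agent.H64

/-- The number of classes of `Cl_T(L)` killed by `p` is positive. -/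
theorem h1u_clTorsionCard_pos (K : Type) [Field K] [NumberField K]
    (T : Finset (HeightOneSpectrum (𝓞 K))) (p : ℕ) : 0 < clTorsionCard K T p := by
  unfold clTorsionCard
  have : Finite (ClT K T) := inferInstance
  have : Nonempty {c : ClT K T // c ^ p = 1} := ⟨⟨1, one_pow p⟩⟩
  exact Nat.card_pos

/-- **[GC-H1-U]** (row 985). -/
theorem h1U : Fermat.Agent.H76.Cft.H1UStatement := by
  intro p _ S hpS L _ hL hμ hT hU
  have hcard : Nat.card {ψ : L.fixingSubgroup → ZMod p //
      IsLvlHom ((globalLevelSys S).restrict L.fixingSubgroup hU) ψ}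
        = p ^ (Fintype.card (InfinitePlace L) + (primesOverSFinset S L hT).card) *
            clTorsionCard L (primesOverSFinset S L hT) p :=
    h1Card p S hpS L hL hμ hT
  refine ⟨?_, hcard⟩
  have hpos : 0 < Nat.card {ψ : L.fixingSubgroup → ZMod p //
      IsLvlHom ((globalLevelSys S).restrict L.fixingSubgroup hU) ψ} := by
    rw [hcard]
    exact Nat.mul_pos (pow_pos (Fact.out : p.Prime).pos _) (h1u_clTorsionCard_pos _ _ _)
  have hfin : Finite {ψ : L.fixingSubgroup → ZMod p //
      IsLvlHom ((globalLevelSys S).restrict L.fixingSubgroup hU) ψ} :=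
    Nat.finite_of_card_ne_zero hpos.ne'
  exact Set.finite_coe_iff.mp hfin

end Fermat.Agent.H64
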