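/-
P-CFT / LOCAL, row 831 INV-RES (helper64), part 2: bookkeeping for the restriction
`G_{E'} → G_E` of the unramified cocycle.
-/
import Fermat.Agent.H78.CFT.LocalInvRows
import Fermat.Agent.H98.Brauer.FinLvl
import Fermat.Agent.H64.CFT.CycPull

set_option autoImplicit false
set_option linter.style.haveILetI false
set_option linter.unusedSectionVars false
set_option synthInstance.maxHeartbeats 400000

noncomputable section

namespace Fermat.Agent.H64

open Fermat.Agent.H13.Cft groupCohomology
open Fermat.Agent.H49.Unram Fermat.Agent.H61.CFT Fermat.Agent.H81.Local Fermat.Agent.H78.CFT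

/-- The restriction to `G_{E'}` of a level coboundary of `G_E` is a level coboundary. -/
theorem invres_res_coboundary {E E' : IntermediateField ℚ Qb} (h : E ≤ E')
    {c : E.fixingSubgroup × E.fixingSubgroup → Qbˣ} (hc : IsLvlMulCoboundary₂E E c) :
    IsLvlMulCoboundary₂E E' (resCochain₂ h c) := by
  obtain ⟨x, ⟨N, hN, hxN⟩, hx⟩ := hc
  obtain ⟨hN1, hN2, F, hF, hFN⟩ := hN
  refine ⟨fun g => x (Subgroup.inclusion (IntermediateField.fixingSubgroup_le h) g),
    ⟨N.comap (Subgroup.inclusion (IntermediateField.fixingSubgroup_le h)),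
      ⟨inferInstance, ⟨?_⟩, F, hF, ?_⟩, ?_⟩, ?_⟩
  · rw [Subgroup.index_comap]
    intro h0
    have h1 := Subgroup.relIndex_dvd_index_of_normal N
      (Subgroup.inclusion (IntermediateField.fixingSubgroup_le h)).range
    rw [h0] at h1
    exact hN2.index_ne_zero (zero_dvd_iff.mp h1)
  · intro g hg
    rw [Subgroup.mem_comap] at hg ⊢
    exact hFN (by rw [Subgroup.mem_comap]; exact hg)
  · intro g n hn
    show x (Subgroup.inclusion (IntermediateField.fixingSubgroup_le h) (g * n)) = _
    rw [map_mul]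
    exact hxN _ _ hn
  · rintro ⟨g, k⟩
    have := hx (Subgroup.inclusion (IntermediateField.fixingSubgroup_le h) g,
      Subgroup.inclusion (IntermediateField.fixingSubgroup_le h) k)
    simpa [mulD₁E, resCochain₂] using this

/-- Level coboundaries are closed under natural powers. -/
theorem invres_coboundary_pow {E : IntermediateField ℚ Qb}
    {c : E.fixingSubgroup × E.fixingSubgroup → Qbˣ} (hc : IsLvlMulCoboundary₂E E c) (n : ℕ) :
    IsLvlMulCoboundary₂E E (fun x => c x ^ n) := by
  induction n with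
  | zero => simpa using isLvlMulCoboundary₂E_one E
  | succ n ih =>
    simp only [pow_succ]
    exact ih.mul hc

/-- Level coboundaries are closed under integral powers. -/
theorem invres_coboundary_zpow {E : IntermediateField ℚ Qb}
    {c : E.fixingSubgroup × E.fixingSubgroup → Qbˣ} (hc : IsLvlMulCoboundary₂E E c) (n : ℤ) :
    IsLvlMulCoboundary₂E E (fun x => c x ^ n) := by
  cases n with
  | ofNat n => simpa using invres_coboundary_pow hc n
  | negSucc n =>
    simp only [zpow_negSucc]
    exact (invres_coboundary_pow hc (n + 1)).inv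

/-- `unramExt q E m ⊆ unramExt q E' m` for `E ≤ E'`. -/
theorem invres_mem_unramExt {q : ℕ} [Fact q.Prime] {E E' : IntermediateField ℚ Qb} (h : E ≤ E')
    {f : ℕ} (hQ : resCard q E' = resCard q E ^ f) (m : ℕ) {x : Qb}
    (hx : x ∈ unramExt q E m) : x ∈ unramExt q E' m := by
  letI : Algebra E E' := (IntermediateField.inclusion h).toRingHom.toAlgebra
  haveI : IsScalarTower E E' Qb := IsScalarTower.of_algebraMap_eq (fun x => rfl)
  have h1 : x ∈ cyclo E' Qb (resCard q E ^ m - 1) := mem_cyclo_baseChange E' hx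
  have h2 : cyclo E' Qb (resCard q E ^ m - 1) ≤ unramExt q E' m := by
    unfold unramExt
    apply cyclo_mono
    rw [hQ, ← pow_mul]
    exact Nat.pow_sub_one_dvd_pow_sub_one _ (Dvd.intro_left f rfl)
  exact h2 h1

/-- The Frobenius of `unramExt q E' m / E'` restricts to the `f`-th power of the Frobenius of
`unramExt q E m / E`. -/
theorem invres_frob {q : ℕ} [Fact q.Prime] {E E' : IntermediateField ℚ Qb} (h : E ≤ E')
    {f : ℕ} (hQ : resCard q E' = resCard q E ^ f) {m : ℕ}
    {φ : unramExt q E m ≃ₐ[E] unramExt q E m} (hφ : IsFrobE q E m φ)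
    {φ' : unramExt q E' m ≃ₐ[E'] unramExt q E' m} (hφ' : IsFrobE q E' m φ')
    (x : Qb) (hx : x ∈ unramExt q E m) :
    ((φ' ⟨x, invres_mem_unramExt h hQ m hx⟩ : unramExt q E' m) : Qb) =
      (((φ ^ f) ⟨x, hx⟩ : unramExt q E m) : Qb) := by
  letI : Algebra E E' := (IntermediateField.inclusion h).toRingHom.toAlgebra
  haveI : IsScalarTower E E' Qb := IsScalarTower.of_algebraMap_eq (fun x => rfl)
  haveI : Algebra.IsAlgebraic E Qb := isAlgebraic_qbar_over E
  exact IsUnramCyclic.frob_baseChange E' hQ hφ hφ'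
    (fun y hy => invres_mem_unramExt h hQ m hy) x hx

/-- Powers of the Frobenius of `unramExt q E' m / E'` on `unramExt q E m`. -/
theorem invres_frob_pow {q : ℕ} [Fact q.Prime] {E E' : IntermediateField ℚ Qb} (h : E ≤ E')
    {f : ℕ} (hQ : resCard q E' = resCard q E ^ f) {m : ℕ}
    {φ : unramExt q E m ≃ₐ[E] unramExt q E m} (hφ : IsFrobE q E m φ)
    {φ' : unramExt q E' m ≃ₐ[E'] unramExt q E' m} (hφ' : IsFrobE q E' m φ')
    (i : ℕ) (x : Qb) (hx : x ∈ unramExt q E m) :
    (((φ' ^ i) ⟨x, invres_mem_unramExt h hQ m hx⟩ : unramExt q E' m) : Qb) =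
      (((φ ^ (f * i)) ⟨x, hx⟩ : unramExt q E m) : Qb) := by
  induction i generalizing x with
  | zero => simp
  | succ i ih =>
    have h1 := ih x hx
    have hz : (((φ ^ (f * i)) ⟨x, hx⟩ : unramExt q E m) : Qb) ∈ unramExt q E m :=
      ((φ ^ (f * i)) ⟨x, hx⟩).2
    have h2 : (φ' ^ i) ⟨x, invres_mem_unramExt h hQ m hx⟩ =
        ⟨(((φ ^ (f * i)) ⟨x, hx⟩ : unramExt q E m) : Qb), invres_mem_unramExt h hQ m hz⟩ :=
      Subtype.ext h1
    rw [pow_succ', AlgEquiv.mul_apply, h2, invres_frob h hQ hφ hφ' _ hz, Nat.mul_succ,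
      add_comm (f * i) f, pow_add, AlgEquiv.mul_apply]

end Fermat.Agent.H64

end
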