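/-
P-CFT / LOCAL, row 831 INV-RES (helper64), part 3: the restriction of the unramified cocycle of
`E` to `G_{E'}` is cohomologous to the `f`-th power of the unramified cocycle of `E'` of the same
element; assembly of `InvResStatement` from `UnramCocycleStatement`.
-/
import Fermat.Agent.H64.CFT.InvResA
import Fermat.Agent.H81.Local.EFBase

set_option autoImplicit false
set_option linter.style.haveILetI false
set_option linter.unusedSectionVars false
set_option synthInstance.maxHeartbeats 400000

noncomputable section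

namespace Fermat.Agent.H64

open Fermat.Agent.H13.Cft groupCohomology
open Fermat.Agent.H49.Unram Fermat.Agent.H61.CFT Fermat.Agent.H81.Local Fermat.Agent.H78.CFT

/-- The Frobenius is a generator. -/
theorem invres_isGen {q : ℕ} [Fact q.Prime] {E : IntermediateField ℚ Qb} {m : ℕ}
    {φ : unramExt q E m ≃ₐ[E] unramExt q E m} (hφ : IsFrobE q E m φ) : IsGen φ := by
  haveI := hφ.finiteDimensional
  exact isGen_of_forall_mem_zpowers hφ.gen

/-- The degree is positive. -/
theorem invres_pos {q : ℕ} [Fact q.Prime] {E : IntermediateField ℚ Qb} {m : ℕ}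
    {φ : unramExt q E m ≃ₐ[E] unramExt q E m} (hφ : IsFrobE q E m φ) : 0 < m := by
  have h1 := (invres_isGen hφ).1
  rwa [hφ.orderOf_eq] at h1

/-- The inclusion `Eˣ → E'ˣ`. -/
def invresUnit {E E' : IntermediateField ℚ Qb} (h : E ≤ E') : Eˣ →* E'ˣ :=
  Units.map ((IntermediateField.inclusion h).toRingHom : E →* E')

@[simp] lemma coe_invresUnit {E E' : IntermediateField ℚ Qb} (h : E ≤ E') (a : Eˣ) :
    (((invresUnit h a : E'ˣ) : E') : Qb) = ((a : E) : Qb) := rfl

/-- Restriction of the restriction: for `σ ∈ G_{E'}`, the restriction of `σ` to `unramExt q E m`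
is `φ ^ (f i)`, where `φ' ^ i` is its restriction to `unramExt q E' m`. -/
theorem invres_resEF {q : ℕ} [Fact q.Prime] {E E' : IntermediateField ℚ Qb} (h : E ≤ E')
    {f : ℕ} (hQ : resCard q E' = resCard q E ^ f) {m : ℕ}
    {φ : unramExt q E m ≃ₐ[E] unramExt q E m} (hφ : IsFrobE q E m φ)
    {φ' : unramExt q E' m ≃ₐ[E'] unramExt q E' m} (hφ' : IsFrobE q E' m φ')
    (σ : E'.fixingSubgroup) :
    resEF E (unramExt q E m) (Subgroup.inclusion (IntermediateField.fixingSubgroup_le h) σ)
      = φ ^ (f * dlog φ' (resEF E' (unramExt q E' m) σ)) := by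
  have hg' : IsGen φ' := invres_isGen hφ'
  have hi := hg'.pow_dlog (resEF E' (unramExt q E' m) σ)
  ext ⟨x, hx⟩
  rw [Fermat.Agent.H75.Inf2.resEF_apply, ← invres_frob_pow h hQ hφ hφ', hi,
    Fermat.Agent.H75.Inf2.resEF_apply]
  rfl


/-- Elements of `E` are fixed by the Galois group. -/
theorem invres_fix {q : ℕ} [Fact q.Prime] {E' : IntermediateField ℚ Qb} {m : ℕ} (a : E'ˣ)
    (x : unramExt q E' m ≃ₐ[E'] unramExt q E' m) :
    x • unitOfE q E' m a = unitOfE q E' m a := by
  apply Units.ext
  show x ((algebraMap E' (unramExt q E' m)) (a : E')) = algebraMap E' (unramExt q E' m) (a : E')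
  exact x.commutes _

/-- The image in `ℚ̄` of the unit of `unramExt q E m` attached to `a ∈ Eˣ`. -/
theorem invres_coe_unitOfE {q : ℕ} [Fact q.Prime] {E : IntermediateField ℚ Qb} (m : ℕ) (a : Eˣ) :
    ((Units.map (algebraMap (unramExt q E m) Qb : (unramExt q E m) →* Qb)
      (unitOfE q E m a) : Qbˣ) : Qb) = ((a : E) : Qb) := by
  rw [Units.coe_map]
  unfold unitOfE
  rw [Units.coe_map]
  simp only [MonoidHom.coe_coe]
  rw [← IsScalarTower.algebraMap_apply]
  rfl

theorem invres_coe_unit {q : ℕ} [Fact q.Prime] {E E' : IntermediateField ℚ Qb} (h : E ≤ E')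
    (m : ℕ) (π : Eˣ) :
    Units.map (algebraMap (unramExt q E' m) Qb : (unramExt q E' m) →* Qb)
        (unitOfE q E' m (invresUnit h π)) =
      Units.map (algebraMap (unramExt q E m) Qb : (unramExt q E m) →* Qb) (unitOfE q E m π) := by
  apply Units.ext
  rw [invres_coe_unitOfE, invres_coe_unitOfE, coe_invresUnit]

/-- The restriction of the unramified cocycle, explicitly. -/
theorem invres_res_unram_eq {q : ℕ} [Fact q.Prime] {E E' : IntermediateField ℚ Qb} (h : E ≤ E')
    {f : ℕ} (hQ : resCard q E' = resCard q E ^ f) {m : ℕ}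
    {φ : unramExt q E m ≃ₐ[E] unramExt q E m} (hφ : IsFrobE q E m φ)
    {φ' : unramExt q E' m ≃ₐ[E'] unramExt q E' m} (hφ' : IsFrobE q E' m φ') (π : Eˣ)
    (x : E'.fixingSubgroup × E'.fixingSubgroup) :
    resCochain₂ h (unramCocycle q E m φ π) x =
      inflE E' (unramExt q E' m) (fun p => unitOfE q E' m (invresUnit h π) ^
        (((f * dlog φ' p.1) % m + (f * dlog φ' p.2) % m) / m)) x := by
  have hg : IsGen φ := invres_isGen hφ
  unfold resCochain₂ unramCocycle inflE
  rw [invres_resEF h hQ hφ hφ', invres_resEF h hQ hφ hφ', stdCocycle_apply, dlog_pow' hg.1,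
    dlog_pow' hg.1, hφ.orderOf_eq, map_pow, map_pow, invres_coe_unit]

/-- **Base change of the unramified cocycle.**  The restriction to `G_{E'}` of the unramified
cocycle of `π ∈ Eˣ` over `E` is cohomologous to the `f`-th power of the unramified cocycle of `π`
over `E'`, where `f` is the residue degree. -/
theorem invres_unram_res {q : ℕ} [Fact q.Prime] {E E' : IntermediateField ℚ Qb} (h : E ≤ E')
    {f : ℕ} (hQ : resCard q E' = resCard q E ^ f) {m : ℕ}
    {φ : unramExt q E m ≃ₐ[E] unramExt q E m} (hφ : IsFrobE q E m φ)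
    {φ' : unramExt q E' m ≃ₐ[E'] unramExt q E' m} (hφ' : IsFrobE q E' m φ') (π : Eˣ) :
    IsLvlMulCoboundary₂E E' (fun x => resCochain₂ h (unramCocycle q E m φ π) x /
      unramCocycle q E' m φ' (invresUnit h π) x ^ f) := by
  haveI := hφ'.finiteDimensional
  haveI := hφ'.isGalois
  have hg' : IsGen φ' := invres_isGen hφ'
  have hm : 0 < m := invres_pos hφ
  have hcob := cycpull_coboundary hg' hm (d := f) (f := f) (by rw [hφ'.orderOf_eq])
    (invres_fix (invresUnit h π))
  obtain ⟨y, hy, hyc⟩ := Fermat.Agent.H98.Brauer.finToLvl E' (unramExt q E' m) _ hcob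
  refine ⟨y, hy, fun x => ?_⟩
  rw [hyc x]
  beta_reduce
  rw [invres_res_unram_eq h hQ hφ hφ' π x]
  unfold unramCocycle inflE
  beta_reduce
  rw [map_div, map_pow, map_pow]

/-- `E'` is finite over `E`. -/
theorem invres_finiteDimensional {q : ℕ} [Fact q.Prime] {E E' : IntermediateField ℚ Qb}
    (h : E ≤ E') (hE : IsLocalFinite q E) (hE' : IsLocalFinite q E') :
    FiniteDimensional E (IntermediateField.extendScalars h) := by
  have := hE'.finiteDimensional
  have h1 : 0 < Module.finrank (localField q) (IntermediateField.extendScalars hE'.le) :=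
    Module.finrank_pos
  rw [← IntermediateField.relfinrank_eq_finrank_of_le hE'.le,
    ← IntermediateField.relfinrank_mul_relfinrank hE.le h] at h1
  have h2 : 0 < IntermediateField.relfinrank E E' := Nat.pos_of_mul_pos_left h1
  rw [IntermediateField.relfinrank_eq_finrank_of_le h] at h2
  exact FiniteDimensional.of_finrank_pos h2

/-- The unramified cocycle is multiplicative in the element. -/
theorem invres_unram_mul_pow {q : ℕ} [Fact q.Prime] {E : IntermediateField ℚ Qb} (m : ℕ)
    (φ : unramExt q E m ≃ₐ[E] unramExt q E m) (a b : Eˣ) (e : ℕ)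
    (x : E.fixingSubgroup × E.fixingSubgroup) :
    unramCocycle q E m φ (a ^ e * b) x =
      unramCocycle q E m φ a x ^ e * unramCocycle q E m φ b x := by
  simp only [unramCocycle, inflE, stdCocycle, map_mul, map_pow, mul_pow]
  rw [pow_right_comm]

/-- An identity in a commutative group. -/
theorem invres_comm_id {M : Type*} [CommGroup M] (c R U W V : M) (e f n : ℕ) (j : ℤ)
    (hn : e * f = n) (hV : V = U ^ e * W) :
    (c / R ^ j) * (R / V ^ f) ^ j * (W ^ ((f : ℤ) * j)) = c / U ^ ((n : ℤ) * j) := by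
  subst hn hV
  have h1 : (R / (U ^ e * W) ^ f) ^ j = R ^ j / (U ^ (((e * f : ℕ) : ℤ) * j) * W ^ ((f : ℤ) * j)) := by
    rw [div_zpow, mul_pow, mul_zpow, ← pow_mul, ← zpow_natCast U (e * f), ← zpow_natCast W f,
      ← zpow_mul, ← zpow_mul]
  rw [h1, div_mul_div_cancel, div_mul_eq_div_div, div_mul_cancel]

/-- **[INV-RES]** (row 831): restriction multiplies the invariant by the degree. -/
theorem invRes (hUC : UnramCocycleStatement) : InvResStatement := by
  intro q _ E E' h hE hE' m c j hinv
  obtain ⟨π, φ, hπ, hφ, hcob⟩ := hinv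
  have hm : 0 < m := invres_pos hφ
  haveI := invres_finiteDimensional h hE hE'
  obtain ⟨e, f, he, hf, hef, hQ, hval⟩ := exists_ef hE (IntermediateField.extendScalars h)
  have hQ' : resCard q E' = resCard q E ^ f := hQ
  rw [← IntermediateField.relfinrank_eq_finrank_of_le h] at hef
  obtain ⟨π', hπ'⟩ := exists_unif_unit hE'
  have hval' : qVal q ((π : E) : Qb) = qVal q ((π' : E') : Qb) ^ e := hval _ _ hπ hπ'
  obtain ⟨φ', hφ'⟩ := exists_isFrobE hE' hm
  refine ⟨π', φ', hπ', hφ', ?_⟩
  -- the unit `u = π / π' ^ e`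
  have hu : IsLvlMulCoboundary₂E E' (unramCocycle q E' m φ' (invresUnit h π / π' ^ e)) := by
    refine (hUC q E' hE' m φ' hφ' π' (invresUnit h π / π' ^ e) 0 hπ' ?_).mpr (dvd_zero _)
    have h0 : ((((invresUnit h π / π' ^ e : E'ˣ) : E') : Qb)) =
        ((π : E) : Qb) / ((π' : E') : Qb) ^ e := by
      rw [Units.val_div_eq_div_val, Units.val_pow_eq_pow_val, IntermediateField.coe_div,
        IntermediateField.coe_pow, coe_invresUnit]
    rw [h0, map_div₀, map_pow, hval', zpow_zero]
    exact div_self (pow_ne_zero _ hπ'.pos.ne')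
  have h1 := invres_res_coboundary h hcob
  have h2 := invres_unram_res h hQ' hφ hφ' π
  have key := (h1.mul (invres_coboundary_zpow h2 j)).mul (invres_coboundary_zpow hu ((f : ℤ) * j))
  have hfun : (fun x => resCochain₂ h (fun x => c x / unramCocycle q E m φ π x ^ j) x *
      (resCochain₂ h (unramCocycle q E m φ π) x /
        unramCocycle q E' m φ' (invresUnit h π) x ^ f) ^ j *
      unramCocycle q E' m φ' (invresUnit h π / π' ^ e) x ^ ((f : ℤ) * j)) =
      (fun x => resCochain₂ h c x /
        unramCocycle q E' m φ' π' x ^ ((IntermediateField.relfinrank E E' : ℤ) * j)) := by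
    funext x
    refine invres_comm_id (resCochain₂ h c x) (resCochain₂ h (unramCocycle q E m φ π) x)
      (unramCocycle q E' m φ' π' x) (unramCocycle q E' m φ' (invresUnit h π / π' ^ e) x)
      (unramCocycle q E' m φ' (invresUnit h π) x) e f _ j hef ?_
    rw [← invres_unram_mul_pow, mul_div_cancel]
  rw [← hfun]
  exact key

end Fermat.Agent.H64

end
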