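/-
P-CFT / LOCAL, row 831 INV-RES (helper64): `InvResStatement`, UNCONDITIONAL
(with helper57's `unramCocycleStd : UnramCocycleStatement`).
-/
import Fermat.Agent.H64.CFT.InvResB
import Fermat.Agent.H57.CFT.UnramCocycle

set_option autoImplicit false

namespace Fermat.Agent.H64

/-- **[INV-RES]** restriction `G_{E'} → G_E` multiplies the invariant by `[E' : E]`. -/
theorem invResStatement : Fermat.Agent.H78.CFT.InvResStatement :=
  invRes Fermat.Agent.H57.CFT.unramCocycleStd

end Fermat.Agent.H64
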